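import Mathlib
import Fermat.Agent.S18.B12.H33.B2Regular
import Fermat.Agent.S18.B12.H278.Global

/-!
# S18 b2 — output O3: FULL NORMALITY of the special fibre (helper204), UNCONDITIONAL

Request of row S37 (`origin/helper37:coord/S37-b2-request.md`): same hypotheses as `B2Statement`
(NO domain hypothesis on `B/wB`), conclusion for ALL integral elements of the total fraction ring
of `B/wB`:

  `b ^ d + ∑ i < d, a i * b ^ i * g ^ (d - i) ∈ w B`, `w ∤ g`  ⟹  `∃ b₀, b - g * b₀ ∈ w B`.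

* `B2NormalStatement` : the requested statement, verbatim.
* `b2Normal : B2NormalStatement` : unconditional proof, an adapter over
  `H33.b2CoreAbs` (heart A6'), `H203.polyInst` (A1), `H93.regSeqAbs` (A0, freeness of `B/wB`) and
  helper278's global normality criterion `H278.mem_range_of_isIntegral_of_forall_prime`
  (with `L = (B/wB)[(Λ∖0)⁻¹]`, `ε = b̄/ḡ`).
* `b2_of_b2Normal` : `B2NormalStatement → B2Statement` (case `d = 2`), hence `b2 : B2Statement`.
-/

set_option autoImplicit false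
set_option linter.style.haveILetI false

noncomputable section

namespace Fermat.Agent.S18.B12.H204

open Polynomial

universe u v

/-- **b2, full normality form** (requested by row S37, verbatim). -/
def B2NormalStatement : Prop :=
  ∀ (R : Type u) [CommRing R] [IsDomain R] [IsDiscreteValuationRing R] [CharZero R]
    (w : R) (_ : Irreducible w)
    (B : Type v) [CommRing B] [IsDomain B] [IsIntegrallyClosed B] [Algebra R[X] B]
    [Module.Finite R[X] B] [Module.IsTorsionFree R[X] B]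
    (_ : ∃ x : Fin (Module.finrank R[X] B) → B,
        ¬ C w ∣ (Matrix.of fun i j => Algebra.intTrace R[X] B (x i * x j)).det)
    (S : Finset R) (_ : ∀ c ∈ S, ∀ c' ∈ S, c ≠ c' → IsUnit (c - c'))
    (_ : ∀ π : R[X], Prime π → ¬ Associated π (C w) → (∀ c ∈ S, ¬ Associated π (X - C c)) →
        (Ideal.span {algebraMap R[X] B π}).IsRadical)
    (b : B) (g : R[X]), ¬ C w ∣ g →
    (∃ (d : ℕ) (a : Fin d → B),
        b ^ d + ∑ i : Fin d, a i * b ^ (i : ℕ) * algebraMap R[X] B g ^ (d - (i : ℕ)) ∈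
          Ideal.span {algebraMap R[X] B (C w)}) →
      ∃ b₀ : B, b - algebraMap R[X] B g * b₀ ∈ Ideal.span {algebraMap R[X] B (C w)}

/-- Abstract core: a finite free algebra `C` over a PID `Λ` satisfying the discriminant bounds of
`B2CoreAbsStatement` at every prime contains every "fraction" `e/g` (`g ≠ 0` in `Λ`) which is
integral over `C`. -/
theorem exists_eq_smul_of_integral_relation {Λ : Type u} [CommRing Λ] [IsDomain Λ]
    [IsPrincipalIdealRing Λ] {C : Type v} [CommRing C] [Algebra Λ C] {n : ℕ}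
    (bb : Module.Basis (Fin n) Λ C)
    (hloc : ∀ t : Λ, Prime t → ∃ (s : ℕ) (y : Fin s → C),
      (∀ x : C, ∃ a : Fin s → Λ,
        x - ∑ i, a i • y i ∈ (Ideal.span {algebraMap Λ C t}).radical) ∧
      ¬ t ^ (n - s + 1) ∣ Algebra.discr Λ bb)
    (e : C) (g : Λ) (hg : g ≠ 0) (d : ℕ) (a : Fin d → C)
    (hrel : e ^ d + ∑ i : Fin d, a i * e ^ (i : ℕ) * (algebraMap Λ C g) ^ (d - (i : ℕ)) = 0) :
    ∃ c : C, e = g • c := by
  classical
  haveI : Module.Free Λ C := Module.Free.of_basis bb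
  haveI : Module.Finite Λ C := Module.Finite.of_basis bb
  let L₀ := Localization (Algebra.algebraMapSubmonoid C (nonZeroDivisors Λ))
  have hinj : Function.Injective (algebraMap C L₀) :=
    Fermat.Agent.S37.H278.algebraMap_injective_of_free (o := Λ) L₀
  have hunit : ∀ r : Λ, r ≠ 0 → IsUnit (algebraMap Λ L₀ r) := by
    intro r hr
    rw [IsScalarTower.algebraMap_apply Λ C L₀]
    exact IsLocalization.map_units L₀ (⟨algebraMap Λ C r, ⟨r, mem_nonZeroDivisors_of_ne_zero hr,
      rfl⟩⟩ : Algebra.algebraMapSubmonoid C (nonZeroDivisors Λ))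
  have hL : ∀ (r : Λ) (l : L₀), r ≠ 0 → r • l = 0 → l = 0 := by
    intro r l hr h
    rw [Algebra.smul_def] at h
    exact ((hunit r hr).mul_right_eq_zero).mp h
  obtain ⟨v, hv⟩ := (hunit g hg).exists_left_inv
  -- the fraction `ε = e / g`
  obtain ⟨ε, hε⟩ : ∃ ε : L₀, ε = v * algebraMap C L₀ e := ⟨_, rfl⟩
  have hgε : algebraMap Λ L₀ g * ε = algebraMap C L₀ e := by
    rw [hε, ← mul_assoc, mul_comm _ v, hv, one_mul]
  -- `ε` is integral over `C`
  have hεC : IsIntegral C ε := by
    refine ⟨X ^ d + ∑ i : Fin d, Polynomial.C (a i) * X ^ (i : ℕ),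
      Polynomial.monic_X_pow_add (Polynomial.degree_sum_fin_lt a), ?_⟩
    have h1 := congrArg (algebraMap C L₀) hrel
    simp only [map_add, map_sum, map_mul, map_pow, map_zero,
      ← IsScalarTower.algebraMap_apply Λ C L₀] at h1
    rw [← hgε] at h1
    have h2 : (algebraMap Λ L₀ g) ^ d *
        (ε ^ d + ∑ i : Fin d, algebraMap C L₀ (a i) * ε ^ (i : ℕ)) = 0 := by
      have h2' : (algebraMap Λ L₀ g) ^ d *
          (ε ^ d + ∑ i : Fin d, algebraMap C L₀ (a i) * ε ^ (i : ℕ)) =
          (algebraMap Λ L₀ g * ε) ^ d + ∑ i : Fin d, algebraMap C L₀ (a i) *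
            (algebraMap Λ L₀ g * ε) ^ (i : ℕ) * (algebraMap Λ L₀ g) ^ (d - (i : ℕ)) := by
        rw [mul_add, Finset.mul_sum, mul_pow]
        refine congrArg₂ (· + ·) rfl (Finset.sum_congr rfl fun i _ => ?_)
        show algebraMap Λ L₀ g ^ d * (algebraMap C L₀ (a i) * ε ^ (i : ℕ)) =
          algebraMap C L₀ (a i) * (algebraMap Λ L₀ g * ε) ^ (i : ℕ) *
            algebraMap Λ L₀ g ^ (d - (i : ℕ))
        have hi : (i : ℕ) + (d - (i : ℕ)) = d := by have := i.2; omega
        rw [mul_pow]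
        calc algebraMap Λ L₀ g ^ d * (algebraMap C L₀ (a i) * ε ^ (i : ℕ))
            = algebraMap Λ L₀ g ^ ((i : ℕ) + (d - (i : ℕ))) *
                (algebraMap C L₀ (a i) * ε ^ (i : ℕ)) := by rw [hi]
          _ = _ := by rw [pow_add]; ring
      rw [h2']
      exact h1
    have h3 := ((hunit g hg).pow d).mul_right_eq_zero.mp h2
    rw [Polynomial.eval₂_add, Polynomial.eval₂_pow, Polynomial.eval₂_X, Polynomial.eval₂_finsetSum]
    simpa [Polynomial.eval₂_mul, Polynomial.eval₂_pow] using h3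
  have hεΛ : IsIntegral Λ ε := isIntegral_trans (R := Λ) (A := C) ε hεC
  have hx0 : ∃ g₀ : Λ, g₀ ≠ 0 ∧ g₀ • ε ∈ (IsScalarTower.toAlgHom Λ C L₀).range :=
    ⟨g, hg, e, by rw [Algebra.smul_def, hgε]; rfl⟩
  obtain ⟨c, hc⟩ := H278.mem_range_of_isIntegral_of_forall_prime hL
    (IsScalarTower.toAlgHom Λ C L₀) hinj bb (by simpa using hloc) ε hεΛ hx0
  have hc' : algebraMap C L₀ c = ε := hc
  refine ⟨c, hinj ?_⟩
  rw [Algebra.smul_def, map_mul, ← IsScalarTower.algebraMap_apply, hc', hgε]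

/-- **b2, full normality form, unconditional.** -/
theorem b2Normal : B2NormalStatement.{u, v} := by
  intro R _ _ _ _ w hw B _ _ _ _ _ _ hsep S hS hNC b g hg hint
  obtain ⟨d, a, hrel⟩ := hint
  obtain ⟨hCw, hΛ, hΛ₀, hℚ, hc⟩ := H203.polyInst R w hw
  have hJ : (Ideal.span {(C w : R[X])}).map (algebraMap R[X] B)
      = Ideal.span {algebraMap R[X] B (C w)} := by
    rw [Ideal.map_span, Set.image_singleton]
  haveI := hΛ
  haveI : IsDomain (R[X] ⧸ Ideal.span {(C w : R[X])}) := by
    rw [Ideal.Quotient.isDomain_iff_prime]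
    exact (Ideal.span_singleton_prime hCw.ne_zero).mpr hCw
  haveI tf := H33.isTorsionFree_quotient (B := B) H93.regSeqAbs (C w : R[X]) hCw
  haveI : Module.Finite (R[X] ⧸ Ideal.span {(C w : R[X])})
      (B ⧸ (Ideal.span {(C w : R[X])}).map (algebraMap R[X] B)) :=
    Module.Finite.of_restrictScalars_finite R[X] _ _
  haveI : Module.Free (R[X] ⧸ Ideal.span {(C w : R[X])})
      (B ⧸ (Ideal.span {(C w : R[X])}).map (algebraMap R[X] B)) :=
    Module.free_of_finite_type_torsion_free'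
  let bb := Module.finBasis (R[X] ⧸ Ideal.span {(C w : R[X])})
      (B ⧸ (Ideal.span {(C w : R[X])}).map (algebraMap R[X] B))
  classical
  have hS1' : ∀ s ∈ S.image (fun c => (X - C c : R[X])), Prime s ∧ ¬ Associated s (C w) ∧
      (Ideal.span {(C w : R[X]), s}).IsMaximal ∧
      IsPrincipalIdealRing (R[X] ⧸ Ideal.span {s}) := by
    intro s hs
    obtain ⟨c, -, rfl⟩ := Finset.mem_image.mp hs
    obtain ⟨h1, h2, h3, h4, -⟩ := hc c
    exact ⟨h1, h2, h3, h4⟩
  have hS2' : ∀ s ∈ S.image (fun c => (X - C c : R[X])),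
      ∀ s' ∈ S.image (fun c => (X - C c : R[X])), s ≠ s' →
      s' ∉ Ideal.span {(C w : R[X]), s} := by
    intro s hs s' hs' hne hmem
    obtain ⟨c, hcS, rfl⟩ := Finset.mem_image.mp hs
    obtain ⟨c', hcS', rfl⟩ := Finset.mem_image.mp hs'
    have hcc : c ≠ c' := fun h => hne (by rw [h])
    exact (hc c).2.2.2.2 c' hmem (hS c hcS c' hcS' hcc)
  have hNC' : ∀ π : R[X], Prime π → ¬ Associated π (C w) →
      (∀ s ∈ S.image (fun c => (X - C c : R[X])), ¬ Associated π s) →
      (Ideal.span {algebraMap R[X] B π}).IsRadical := by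
    intro π hπ hπw hπS
    exact hNC π hπ hπw (fun c hcS => hπS _ (Finset.mem_image_of_mem _ hcS))
  have hcore' := H33.b2CoreAbs R[X] (C w) hCw hΛ hΛ₀ hℚ B hsep
    (S.image (fun c => (X - C c : R[X]))) hS1' hS2' hNC'
  -- the relation in the special fibre
  have hg0 : Ideal.Quotient.mk (Ideal.span {(C w : R[X])}) g ≠ 0 := by
    rw [Ne, Ideal.Quotient.eq_zero_iff_mem, Ideal.mem_span_singleton]
    exact hg
  have hrel' : (Ideal.Quotient.mk ((Ideal.span {(C w : R[X])}).map (algebraMap R[X] B)) b) ^ d +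
      ∑ i : Fin d, Ideal.Quotient.mk ((Ideal.span {(C w : R[X])}).map (algebraMap R[X] B)) (a i) *
        (Ideal.Quotient.mk ((Ideal.span {(C w : R[X])}).map (algebraMap R[X] B)) b) ^ (i : ℕ) *
        (algebraMap (R[X] ⧸ Ideal.span {(C w : R[X])})
          (B ⧸ (Ideal.span {(C w : R[X])}).map (algebraMap R[X] B))
          (Ideal.Quotient.mk (Ideal.span {(C w : R[X])}) g)) ^ (d - (i : ℕ)) = 0 := by
    rw [← hJ, ← Ideal.Quotient.eq_zero_iff_mem] at hrel
    rw [← hrel]
    simp only [map_add, map_sum, map_mul, map_pow,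
      Ideal.Quotient.algebraMap_quotient_map_quotient]
  obtain ⟨c, hc⟩ := exists_eq_smul_of_integral_relation bb
    (fun t ht => (hcore' t ht _ bb).2) _ _ hg0 d _ hrel'
  obtain ⟨b₀, rfl⟩ := Ideal.Quotient.mk_surjective c
  refine ⟨b₀, ?_⟩
  rw [← hJ, ← Ideal.Quotient.eq_zero_iff_mem, map_sub, hc, map_mul,
    Ideal.Quotient.mk_smul_mk_quotient_map_quotient, map_mul, sub_self]

/-- `B2NormalStatement → B2Statement` (the case `d = 2`, `a = (0, -1)`). -/
theorem b2_of_b2Normal (h : B2NormalStatement.{u, v}) : B2Statement.{u, v} := by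
  intro R _ _ _ _ w hw B _ _ _ _ _ _ hsep S hS hNC b g hg hrel
  refine h R w hw B hsep S hS hNC b g hg ⟨2, ![0, -1], ?_⟩
  have : b ^ 2 + ∑ i : Fin 2, (![0, -1] : Fin 2 → B) i * b ^ (i : ℕ) *
      algebraMap R[X] B g ^ (2 - (i : ℕ)) = b ^ 2 - algebraMap R[X] B g * b := by
    rw [Fin.sum_univ_two]
    simp
    ring
  rw [this]
  exact hrel

/-- **O2 = b2 (idempotent form), unconditional.** -/
theorem b2 : B2Statement.{u, v} := b2_of_b2Normal b2Normal

end Fermat.Agent.S18.B12.H204
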