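import Mathlib

/-!
# S18 / b2.5 / A3 : discriminant reduction mod `w` (helper204) — Mathlib-only core

`discrRed_explicit` = explicit (unfolded) form of `Fermat.Agent.S18.B12.DiscrRedStatement`
(`intDiscr` and `IsLocalBasis` of `B12/Spec2.lean` unfolded); the one-line wrapper in the frozen
shape is `B12/H204/DiscrRed.lean`.

Also: `mk_intTrace_eq_trace_of_quasiBasis` (trace reduction mod `w`: `intTrace b mod w = Tr(b̄)`),
`smul_intTrace_eq_of_quasiBasis` (`g * intTrace b = tr m` if `g • (b * x j) = ∑ i, m i j • x i`).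

Main tool: `smul_trace_eq_of_quasiBasis` — for a finite free algebra `C` over `Λ`, a linearly
independent family `x` with `g • C ⊆ span x`, and a matrix `m` with `g • (b * x j) = ∑ i, m i j • x i`,
one has `g * trace b = trace m`.
-/

set_option autoImplicit false

noncomputable section

namespace Fermat.Agent.S18.B12.H204

open Matrix

/-- Trace through a quasi-basis. -/
theorem smul_trace_eq_of_quasiBasis {Λ : Type*} {C : Type*} [CommRing Λ] [CommRing C] [Algebra Λ C]
    [Module.Free Λ C] [Module.Finite Λ C] {n : ℕ} (x : Fin n → C) (hx : LinearIndependent Λ x)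
    (g : Λ) (hspan : ∀ c : C, g • c ∈ Submodule.span Λ (Set.range x)) (b : C)
    (m : Matrix (Fin n) (Fin n) Λ) (hm : ∀ j, g • (b * x j) = ∑ i, m i j • x i) :
    g * Algebra.trace Λ C b = Matrix.trace m := by
  classical
  set φ : (Fin n → Λ) →ₗ[Λ] C := Fintype.linearCombination Λ x with hφ
  have hinj : Function.Injective φ :=
    linearIndependent_iff_injective_fintypeLinearCombination.1 hx
  have hrange : LinearMap.range φ = Submodule.span Λ (Set.range x) :=
    Fintype.range_linearCombination Λ x
  have hmem : ∀ c : C, (g • LinearMap.id : C →ₗ[Λ] C) c ∈ LinearMap.range φ := by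
    intro c
    rw [hrange]
    simpa using hspan c
  set ψ : C →ₗ[Λ] (Fin n → Λ) :=
    (LinearEquiv.ofInjective φ hinj).symm.toLinearMap ∘ₗ
      (LinearMap.codRestrict (LinearMap.range φ) (g • LinearMap.id) hmem) with hψ
  have hφψ : ∀ c, φ (ψ c) = g • c := by
    intro c
    have h1 : (LinearEquiv.ofInjective φ hinj) (ψ c) =
        (LinearMap.codRestrict (LinearMap.range φ) (g • LinearMap.id) hmem) c := by
      simp [hψ]
    have h2 := congrArg Subtype.val h1
    simpa using h2
  have hcomp : φ ∘ₗ ψ = g • (LinearMap.id : C →ₗ[Λ] C) := by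
    ext c
    simpa using hφψ c
  have hmat : (ψ ∘ₗ LinearMap.mulLeft Λ b) ∘ₗ φ = Matrix.toLin' m := by
    apply (Pi.basisFun Λ (Fin n)).ext
    intro j
    apply hinj
    have h1 : φ (Pi.basisFun Λ (Fin n) j) = x j := by
      simp [hφ, Fintype.linearCombination_apply_single]
    have h2 : φ ((Matrix.toLin' m) (Pi.basisFun Λ (Fin n) j)) = ∑ i, m i j • x i := by
      simp [hφ, Fintype.linearCombination_apply]
    rw [h2, LinearMap.comp_apply, LinearMap.comp_apply, hφψ, h1, LinearMap.mulLeft_apply, hm j]
  calc g * Algebra.trace Λ C b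
      = LinearMap.trace Λ C (g • LinearMap.mulLeft Λ b) := by
        rw [map_smul, smul_eq_mul, Algebra.trace_apply]
        rfl
    _ = LinearMap.trace Λ C (φ ∘ₗ (ψ ∘ₗ LinearMap.mulLeft Λ b)) := by
        rw [← LinearMap.comp_assoc, hcomp]
        congr 1
    _ = LinearMap.trace Λ (Fin n → Λ) ((ψ ∘ₗ LinearMap.mulLeft Λ b) ∘ₗ φ) :=
        (LinearMap.trace_comp_comm' φ (ψ ∘ₗ LinearMap.mulLeft Λ b)).symm
    _ = Matrix.trace m := by
        rw [hmat, Matrix.trace_toLin'_eq]

attribute [local instance] FractionRing.liftAlgebra FractionRing.isScalarTower_liftAlgebra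

/-- Generic side: `g * intTrace b = trace m` for a quasi-basis `x` of `B` over `P`. -/
theorem smul_intTrace_eq_of_quasiBasis {P : Type*} {B : Type*} [CommRing P] [IsDomain P]
    [IsIntegrallyClosed P] [CommRing B] [IsDomain B] [IsIntegrallyClosed B] [Algebra P B]
    [Module.Finite P B] [Module.IsTorsionFree P B] {n : ℕ} (x : Fin n → B)
    (hx : LinearIndependent P x) (g : P)
    (hspan : ∀ c : B, g • c ∈ Submodule.span P (Set.range x)) (b : B)
    (m : Matrix (Fin n) (Fin n) P) (hm : ∀ j, g • (b * x j) = ∑ i, m i j • x i) :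
    g * Algebra.intTrace P B b = Matrix.trace m := by
  classical
  have : IsIntegralClosure B P (FractionRing B) := IsIntegralClosure.of_isIntegrallyClosed _ _ _
  have : Algebra.IsAlgebraic (FractionRing P) (FractionRing B) :=
    isAlgebraic_of_isFractionRing P B ..
  have hloc : IsLocalization (Algebra.algebraMapSubmonoid B (nonZeroDivisors P))
      (FractionRing B) :=
    IsIntegralClosure.isLocalization _ (FractionRing P) _ _
  have : FiniteDimensional (FractionRing P) (FractionRing B) :=
    .of_isLocalization P B (nonZeroDivisors P)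
  apply IsFractionRing.injective P (FractionRing P)
  rw [map_mul, Algebra.algebraMap_intTrace_fractionRing]
  have hinjBL : Function.Injective (algebraMap B (FractionRing B)) :=
    IsFractionRing.injective B (FractionRing B)
  have hxL : LinearIndependent (FractionRing P) (fun i => algebraMap B (FractionRing B) (x i)) := by
    have h1 : LinearIndependent P (fun i => algebraMap B (FractionRing B) (x i)) :=
      hx.map' (IsScalarTower.toAlgHom P B (FractionRing B)).toLinearMap
        (LinearMap.ker_eq_bot.2 hinjBL)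
    exact h1.localization (FractionRing P) (nonZeroDivisors P)
  have hspanL : ∀ l : FractionRing B, (algebraMap P (FractionRing P) g) • l ∈
      Submodule.span (FractionRing P) (Set.range fun i => algebraMap B (FractionRing B) (x i)) := by
    intro l
    obtain ⟨⟨b', s⟩, hs⟩ :=
      IsLocalization.surj (Algebra.algebraMapSubmonoid B (nonZeroDivisors P)) l
    obtain ⟨a, ha, has⟩ := s.2
    have ha0 : algebraMap P (FractionRing P) a ≠ 0 := by
      intro h
      exact nonZeroDivisors.ne_zero ha
        ((IsFractionRing.injective P (FractionRing P)) (by rw [h, map_zero]))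
    obtain ⟨c, hc⟩ := (Submodule.mem_span_range_iff_exists_fun P).1 (hspan b')
    have hl : l = (algebraMap P (FractionRing P) a)⁻¹ • algebraMap B (FractionRing B) b' := by
      rw [eq_inv_smul_iff₀ ha0, ← hs, ← has, algebraMap_smul, Algebra.smul_def,
        ← IsScalarTower.algebraMap_apply, mul_comm]
    have hgb : (algebraMap P (FractionRing P) g) • algebraMap B (FractionRing B) b' =
        ∑ i, algebraMap P (FractionRing P) (c i) • algebraMap B (FractionRing B) (x i) := by
      simp only [algebraMap_smul]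
      have h := congrArg (IsScalarTower.toAlgHom P B (FractionRing B)) hc
      simp only [map_sum, map_smul] at h
      simpa using h.symm
    rw [hl, smul_comm, hgb]
    refine Submodule.smul_mem _ _ (Submodule.sum_mem _ fun i _ => Submodule.smul_mem _ _ ?_)
    exact Submodule.subset_span ⟨i, rfl⟩
  have hmL : ∀ j, (algebraMap P (FractionRing P) g) •
      (algebraMap B (FractionRing B) b * algebraMap B (FractionRing B) (x j)) =
      ∑ i, (m.map (algebraMap P (FractionRing P))) i j • algebraMap B (FractionRing B) (x i) := by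
    intro j
    simp only [Matrix.map_apply, algebraMap_smul]
    have h := congrArg (IsScalarTower.toAlgHom P B (FractionRing B)) (hm j)
    simp only [map_sum, map_smul, map_mul] at h
    simpa using h
  have key := smul_trace_eq_of_quasiBasis (Λ := FractionRing P) (C := FractionRing B)
    (fun i => algebraMap B (FractionRing B) (x i)) hxL (algebraMap P (FractionRing P) g) hspanL
    (algebraMap B (FractionRing B) b) (m.map (algebraMap P (FractionRing P))) hmL
  rw [key]
  simp [Matrix.trace, map_sum]

section Reduction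

variable {P : Type*} {B : Type*} [CommRing P] [CommRing B] [Algebra P B]

/-- `mk (a • y) = mk a • mk y` for `B/wB` over `P/(w)`. -/
theorem mk_smul_quotient (w : P) (a : P) (y : B) :
    Ideal.Quotient.mk ((Ideal.span {w}).map (algebraMap P B)) (a • y) =
      Ideal.Quotient.mk (Ideal.span {w}) a •
        Ideal.Quotient.mk ((Ideal.span {w}).map (algebraMap P B)) y := by
  rw [Algebra.smul_def, Ideal.Quotient.mk_smul_mk_quotient_map_quotient]

theorem mk_sum_smul_quotient (w : P) {n : ℕ} (a : Fin n → P) (x : Fin n → B) :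
    Ideal.Quotient.mk ((Ideal.span {w}).map (algebraMap P B)) (∑ i, a i • x i) =
      ∑ i, Ideal.Quotient.mk (Ideal.span {w}) (a i) •
        Ideal.Quotient.mk ((Ideal.span {w}).map (algebraMap P B)) (x i) := by
  rw [map_sum]
  exact Finset.sum_congr rfl fun i _ => mk_smul_quotient w _ _

/-- The reduction mod `w` of a quasi-basis (`g • B ⊆ span x`, `w ∤ g`, `w` prime) is linearly
independent over `P/(w)`. -/
theorem linearIndependent_mk_of_quasiBasis (w : P) (hw : Prime w) {n : ℕ} (x : Fin n → B)
    (hli : LinearIndependent P x) (g : P) (hwg : ¬ w ∣ g)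
    (hgspan : ∀ b : B, g • b ∈ Submodule.span P (Set.range x)) :
    LinearIndependent (P ⧸ (Ideal.span {w} : Ideal P))
      (fun i => Ideal.Quotient.mk ((Ideal.span {w}).map (algebraMap P B)) (x i)) := by
  classical
  rw [Fintype.linearIndependent_iff]
  intro a ha i
  choose a' ha' using fun i => Ideal.Quotient.mk_surjective (a i)
  have h1 : ∑ i, a' i • x i ∈ (Ideal.span {w}).map (algebraMap P B) := by
    rw [← Ideal.Quotient.eq_zero_iff_mem, mk_sum_smul_quotient, ← ha]
    exact Finset.sum_congr rfl fun i _ => by rw [ha' i]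
  rw [Ideal.map_span, Set.image_singleton, Ideal.mem_span_singleton] at h1
  obtain ⟨b, hb⟩ := h1
  obtain ⟨c, hc⟩ := (Submodule.mem_span_range_iff_exists_fun P).1 (hgspan b)
  have h2 : ∑ i, (g * a' i - w * c i) • x i = 0 := by
    simp only [sub_smul, mul_smul, Finset.sum_sub_distrib, ← Finset.smul_sum]
    rw [hb, hc, Algebra.smul_def, Algebra.smul_def, Algebra.smul_def]
    ring
  have h3 := Fintype.linearIndependent_iff.1 hli _ h2 i
  have h4 : w ∣ a' i :=
    (hw.dvd_or_dvd ⟨c i, sub_eq_zero.1 h3⟩).resolve_left hwg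
  rw [← ha' i, Ideal.Quotient.eq_zero_iff_mem, Ideal.mem_span_singleton]
  exact h4

/-- `ḡ • (B/wB) ⊆ span x̄`. -/
theorem smul_mem_span_mk_of_quasiBasis (w : P) {n : ℕ} (x : Fin n → B) (g : P)
    (hgspan : ∀ b : B, g • b ∈ Submodule.span P (Set.range x))
    (c : B ⧸ (Ideal.span {w}).map (algebraMap P B)) :
    (Ideal.Quotient.mk (Ideal.span {w}) g) • c ∈ Submodule.span (P ⧸ (Ideal.span {w} : Ideal P))
      (Set.range fun i => Ideal.Quotient.mk ((Ideal.span {w}).map (algebraMap P B)) (x i)) := by
  obtain ⟨c', rfl⟩ := Ideal.Quotient.mk_surjective c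
  obtain ⟨a, ha⟩ := (Submodule.mem_span_range_iff_exists_fun P).1 (hgspan c')
  rw [Submodule.mem_span_range_iff_exists_fun]
  refine ⟨fun i => Ideal.Quotient.mk (Ideal.span {w}) (a i), ?_⟩
  rw [← mk_sum_smul_quotient, ha, mk_smul_quotient]

end Reduction

/-- **Trace reduction mod `w`**: if `B` has a quasi-basis `x` (`g • B ⊆ span x`, `w ∤ g`) and
`B/wB` is finite free over `P/(w)`, then `intTrace b mod w = Tr_{(B/wB)/(P/(w))} (b mod w)`. -/
theorem mk_intTrace_eq_trace_of_quasiBasis {P : Type*} {B : Type*} [CommRing P] [IsDomain P]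
    [IsIntegrallyClosed P] [CommRing B] [IsDomain B] [IsIntegrallyClosed B] [Algebra P B]
    [Module.Finite P B] [Module.IsTorsionFree P B] (w : P) (hw : Prime w)
    [Module.Free (P ⧸ (Ideal.span {w} : Ideal P)) (B ⧸ (Ideal.span {w}).map (algebraMap P B))]
    [Module.Finite (P ⧸ (Ideal.span {w} : Ideal P)) (B ⧸ (Ideal.span {w}).map (algebraMap P B))]
    {n : ℕ} (x : Fin n → B) (hli : LinearIndependent P x) (g : P) (hwg : ¬ w ∣ g)
    (hgspan : ∀ b : B, g • b ∈ Submodule.span P (Set.range x)) (b : B) :
    Ideal.Quotient.mk (Ideal.span {w}) (Algebra.intTrace P B b) =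
      Algebra.trace (P ⧸ (Ideal.span {w} : Ideal P)) (B ⧸ (Ideal.span {w}).map (algebraMap P B))
        (Ideal.Quotient.mk ((Ideal.span {w}).map (algebraMap P B)) b) := by
  classical
  have hIprime : (Ideal.span {w} : Ideal P).IsPrime :=
    (Ideal.span_singleton_prime hw.ne_zero).2 hw
  have : IsDomain (P ⧸ (Ideal.span {w} : Ideal P)) := Ideal.Quotient.isDomain _
  have hg0 : Ideal.Quotient.mk (Ideal.span {w}) g ≠ 0 := by
    rw [Ne, Ideal.Quotient.eq_zero_iff_mem, Ideal.mem_span_singleton]
    exact hwg
  choose m hm using fun j => (Submodule.mem_span_range_iff_exists_fun P).1 (hgspan (b * x j))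
  have h1 := smul_intTrace_eq_of_quasiBasis x hli g hgspan b (Matrix.of fun i j => m j i)
    (fun j => (hm j).symm)
  have h2 := smul_trace_eq_of_quasiBasis _
    (linearIndependent_mk_of_quasiBasis w hw x hli g hwg hgspan)
    (Ideal.Quotient.mk (Ideal.span {w}) g) (smul_mem_span_mk_of_quasiBasis w x g hgspan)
    (Ideal.Quotient.mk ((Ideal.span {w}).map (algebraMap P B)) b)
    ((Matrix.of fun i j => m j i).map (Ideal.Quotient.mk (Ideal.span {w}))) (by
      intro j
      rw [← map_mul, ← mk_smul_quotient, ← hm j, mk_sum_smul_quotient]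
      rfl)
  apply mul_left_cancel₀ hg0
  rw [h2, ← map_mul, h1]
  simp [Matrix.trace, map_sum]

/-- **A3** (discriminant reduction mod `w`), explicit form of
`Fermat.Agent.S18.B12.DiscrRedStatement`. -/
theorem discrRed_explicit {P : Type*} {B : Type*} [CommRing P] [IsDomain P] [IsIntegrallyClosed P]
    [CommRing B] [IsDomain B] [IsIntegrallyClosed B] [Algebra P B] [Module.Finite P B]
    [Module.IsTorsionFree P B] (w : P) (hw : Prime w) (𝔪 : Ideal P) [𝔪.IsPrime] (hw𝔪 : w ∈ 𝔪)
    (n : ℕ) (x : Fin n → B) (hli : LinearIndependent P x) (g : P) (hg𝔪 : g ∉ 𝔪)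
    (hgspan : ∀ b : B, g • b ∈ Submodule.span P (Set.range x))
    (n' : ℕ) (bb : Module.Basis (Fin n') (P ⧸ Ideal.span {w})
      (B ⧸ (Ideal.span {w}).map (algebraMap P B))) :
    n' = n ∧ ∃ u : P, u ∉ 𝔪 ∧
      Ideal.Quotient.mk (Ideal.span {w})
          (Matrix.of fun i j => Algebra.intTrace P B (x i * x j)).det =
        Ideal.Quotient.mk (Ideal.span {w}) u ^ 2 * Algebra.discr (P ⧸ Ideal.span {w}) bb := by
  classical
  have hIprime : (Ideal.span {w} : Ideal P).IsPrime :=
    (Ideal.span_singleton_prime hw.ne_zero).2 hw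
  have : IsDomain (P ⧸ (Ideal.span {w} : Ideal P)) := Ideal.Quotient.isDomain _
  have hwg : ¬ w ∣ g := fun h => hg𝔪 (Ideal.mem_of_dvd 𝔪 h hw𝔪)
  have hg0 : Ideal.Quotient.mk (Ideal.span {w}) g ≠ 0 := by
    rw [Ne, Ideal.Quotient.eq_zero_iff_mem, Ideal.mem_span_singleton]
    exact hwg
  have hxbli := linearIndependent_mk_of_quasiBasis w hw x hli g hwg hgspan
  have hxbspan := smul_mem_span_mk_of_quasiBasis w x g hgspan
  have : Module.Free (P ⧸ (Ideal.span {w} : Ideal P))
      (B ⧸ (Ideal.span {w}).map (algebraMap P B)) := Module.Free.of_basis bb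
  have : Module.Finite (P ⧸ (Ideal.span {w} : Ideal P))
      (B ⧸ (Ideal.span {w}).map (algebraMap P B)) := Module.Finite.of_basis bb
  -- `n' = n`
  have hn : n' = n := by
    apply le_antisymm
    · have hli' : LinearIndependent (P ⧸ (Ideal.span {w} : Ideal P))
          (fun j => (Ideal.Quotient.mk (Ideal.span {w}) g) • bb j) := by
        rw [Fintype.linearIndependent_iff]
        intro a ha j
        have h1 : ∑ j, (a j * Ideal.Quotient.mk (Ideal.span {w}) g) • bb j = 0 := by
          rw [← ha]
          exact Finset.sum_congr rfl fun j _ => by rw [mul_smul]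
        have h2 := Fintype.linearIndependent_iff.1 bb.linearIndependent _ h1 j
        exact (mul_eq_zero.1 h2).resolve_right hg0
      have h := linearIndependent_le_span_aux' _ hli'
        (Set.range fun i => Ideal.Quotient.mk ((Ideal.span {w}).map (algebraMap P B)) (x i))
        (by rintro _ ⟨j, rfl⟩; exact hxbspan (bb j))
      have h' := Fintype.card_range_le
        (fun i => Ideal.Quotient.mk ((Ideal.span {w}).map (algebraMap P B)) (x i))
      simpa using h.trans h'
    · have h := linearIndependent_le_span_aux' _ hxbli (Set.range bb)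
        (by rw [bb.span_eq]; exact le_top)
      have h' := Fintype.card_range_le bb
      simpa using h.trans h'
  subst hn
  refine ⟨rfl, ?_⟩
  have htr := mk_intTrace_eq_trace_of_quasiBasis w hw x hli g hwg hgspan
  -- discriminants
  have hdisc : Algebra.discr (P ⧸ (Ideal.span {w} : Ideal P))
      (fun i => Ideal.Quotient.mk ((Ideal.span {w}).map (algebraMap P B)) (x i)) =
      (bb.toMatrix fun i => Ideal.Quotient.mk ((Ideal.span {w}).map (algebraMap P B)) (x i)).det ^ 2
        * Algebra.discr (P ⧸ (Ideal.span {w} : Ideal P)) bb := by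
    rw [← Algebra.discr_of_matrix_vecMul, Module.Basis.toMatrix_map_vecMul]
  obtain ⟨u, hu⟩ := Ideal.Quotient.mk_surjective
    (bb.toMatrix fun i => Ideal.Quotient.mk ((Ideal.span {w}).map (algebraMap P B)) (x i)).det
  refine ⟨u, ?_, ?_⟩
  · intro hu𝔪
    choose V hV using fun j =>
      (Submodule.mem_span_range_iff_exists_fun (P ⧸ (Ideal.span {w} : Ideal P))).1 (hxbspan (bb j))
    have hUV : (bb.toMatrix fun i =>
          Ideal.Quotient.mk ((Ideal.span {w}).map (algebraMap P B)) (x i)) *
        (Matrix.of fun i j => V j i) =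
        (Ideal.Quotient.mk (Ideal.span {w}) g) •
          (1 : Matrix (Fin n') (Fin n') (P ⧸ (Ideal.span {w} : Ideal P))) := by
      ext k j
      have h := congrArg (fun y => bb.repr y k) (hV j)
      simp only [map_sum, map_smul, Finsupp.coe_finsetSum, Finset.sum_apply, Finsupp.coe_smul,
        Pi.smul_apply, smul_eq_mul, Module.Basis.repr_self] at h
      rw [Matrix.mul_apply]
      simp only [Module.Basis.toMatrix_apply, Matrix.of_apply, Matrix.smul_apply, smul_eq_mul,
        Matrix.one_apply]
      rw [Finsupp.single_apply] at h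
      rw [Finset.sum_congr rfl fun i _ => mul_comm _ _, h]
      by_cases hkj : k = j
      · simp [hkj]
      · simp [hkj, Ne.symm hkj]
    have hdet := congrArg Matrix.det hUV
    rw [Matrix.det_mul, Matrix.det_smul, Matrix.det_one, mul_one, Fintype.card_fin] at hdet
    obtain ⟨v, hv⟩ := Ideal.Quotient.mk_surjective (Matrix.of fun i j => V j i).det
    rw [← hu, ← hv, ← map_mul, ← map_pow, Ideal.Quotient.eq, Ideal.mem_span_singleton] at hdet
    have h1 : u * v - g ^ n' ∈ 𝔪 := Ideal.mem_of_dvd 𝔪 hdet hw𝔪
    have h2 : u * v ∈ 𝔪 := 𝔪.mul_mem_right _ hu𝔪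
    have h3 : g ^ n' ∈ 𝔪 := by simpa using 𝔪.sub_mem h2 h1
    exact hg𝔪 (Ideal.IsPrime.mem_of_pow_mem inferInstance n' h3)
  · rw [hu, ← hdisc, RingHom.map_det, Algebra.discr_def]
    congr 1
    ext i j
    simp [Algebra.traceMatrix_apply, Algebra.traceForm_apply, htr]

end Fermat.Agent.S18.B12.H204
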